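/-
The cannonball problem (helper47).
-/
import Fermat.Agent.Corollaries.Ferm.Quartic

/-!
# The cannonball problem

* `sq_sub_two_mul_four`, `sq_sub_eight_mul_four`: the equations `x² - 2 y⁴ = 1`, `x² - 8 y⁴ = 1`.
* `four_mul_sq_add_three`: `(4 m² + 3)² - 3 y² = 1` only for `m² = 1`.
* `six_mul_sq_iff`: the integral solutions of `x (x + 1) (2 x + 1) = 6 y²`.
* `cannonball`: `1² + 2² + ... + n² = m²` only for `(n, m) = (0, 0), (1, 1), (24, 70)` (a problem of
  E. Lucas, 1875; G. N. Watson 1918; the elementary proof here is that of W. S. Anglin, 1990).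
* `cube_sub_self_iff`: the integral solutions of `x³ - x = 6 y²`.
* `tetrahedral`: the tetrahedral number `n (n + 1) (n + 2) / 6` is a square only for
  `n = 0, 1, 2, 48` (A. Meyl, 1878).
* `odd_squares`: `1² + 3² + ... + (2 n - 1)²` is a square only for `n = 0, 1`.
-/

namespace Fermat.Agent.Cor.Cannon

open Ferm (sq_mod four_sub_two_sq sq_eq_sq_of_four_add_four)

theorem pow_of_nonneg {a b c : ℤ} {k : ℕ} (hk : Even k) (hk0 : k ≠ 0) (h : IsCoprime a b)
    (e : a * b = c ^ k) (ha : 0 ≤ a) : ∃ r : ℤ, a = r ^ k := by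
  obtain ⟨d, hd⟩ := exists_associated_pow_of_mul_eq_pow' h e
  rcases Int.associated_iff.1 hd with h1 | h1
  · exact ⟨d, h1.symm⟩
  · refine ⟨0, ?_⟩
    have h2 : 0 ≤ d ^ k := hk.pow_nonneg d
    rw [zero_pow hk0]
    linarith

theorem triple {a b c y : ℤ} (hab : IsCoprime a b) (hac : IsCoprime a c) (hbc : IsCoprime b c)
    (ha : 0 ≤ a) (hb : 0 ≤ b) (hc : 0 ≤ c) (e : a * b * c = y ^ 2) :
    (∃ r : ℤ, a = r ^ 2) ∧ (∃ r : ℤ, b = r ^ 2) ∧ ∃ r : ℤ, c = r ^ 2 := by
  refine ⟨pow_of_nonneg even_two two_ne_zero (IsCoprime.mul_right hab hac) (c := y)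
    (by rw [← e]; ring) ha, pow_of_nonneg even_two two_ne_zero
    (IsCoprime.mul_right hab.symm hbc) (c := y) (by rw [← e]; ring) hb,
    pow_of_nonneg even_two two_ne_zero (IsCoprime.mul_right hac.symm hbc.symm) (c := y)
    (by rw [← e]; ring) hc⟩

theorem exists_half {x c : ℤ} (h : x ^ 2 = 4 * c + 1) :
    ∃ m : ℤ, 0 ≤ m ∧ m * (m + 1) = c ∧ |x| = 2 * m + 1 := by
  have h0 := sq_mod |x|
  rw [sq_abs] at h0
  obtain ⟨k, hk⟩ : ∃ k, |x| = 2 * k + 1 := ⟨|x| / 2, by omega⟩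
  have h1 := abs_nonneg x
  refine ⟨k, by omega, ?_, hk⟩
  have h2 : x ^ 2 = (2 * k + 1) ^ 2 := by rw [← sq_abs, hk]
  nlinarith

/-- `x² - 2 y⁴ = 1` only for `y = 0`. -/
theorem sq_sub_two_mul_four {x y : ℤ} (h : x ^ 2 - 2 * y ^ 4 = 1) : y = 0 := by
  obtain ⟨b, rfl⟩ : ∃ b, y = 2 * b := by
    have m1 := sq_mod x
    have m2 := sq_mod y
    have m3 := sq_mod (y ^ 2)
    have e : (y ^ 2) ^ 2 = y ^ 4 := by ring
    refine ⟨y / 2, ?_⟩
    omega
  obtain ⟨m, hm, hmm, -⟩ := exists_half (x := x) (c := 8 * b ^ 4) (by linarith [h])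
  rcases Int.emod_two_eq_zero_or_one m with h2 | h2
  · obtain ⟨k, hk⟩ : (8 : ℤ) ∣ m := by
      have hco : IsCoprime (8 : ℤ) (m + 1) := by
        have : IsCoprime (2 : ℤ) (m + 1) := ⟨-(m / 2), 1, by omega⟩
        simpa using this.pow_left (m := 3)
      exact hco.dvd_of_dvd_mul_right (hmm ▸ dvd_mul_right _ _)
    have hco : IsCoprime k (m + 1) := ⟨-8, 1, by rw [hk]; ring⟩
    have e1 : k * (m + 1) = b ^ 4 := by
      rw [hk] at hmm ⊢
      linarith
    obtain ⟨r, hr⟩ := pow_of_nonneg (by decide : Even 4) (by norm_num) hco e1 (by omega)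
    obtain ⟨s, hs⟩ := pow_of_nonneg (by decide : Even 4) (by norm_num) hco.symm
      (by rw [mul_comm]; exact e1) (by omega)
    have h3 : s ^ 4 - 2 * (2 * r ^ 2) ^ 2 = 1 := by
      rw [← hs, hk, hr]; ring
    have h4 := four_sub_two_sq h3
    have h5 : r ^ 2 = 0 := by omega
    have h6 : r = 0 := by simpa using h5
    have h7 : b ^ 4 = 0 := by rw [← e1, hr, h6]; ring
    have h8 : b = 0 := by simpa using h7
    rw [h8, mul_zero]
  · exfalso
    obtain ⟨k, hk⟩ : (8 : ℤ) ∣ m + 1 := by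
      have hco : IsCoprime (8 : ℤ) m := by
        have : IsCoprime (2 : ℤ) m := ⟨-(m / 2), 1, by omega⟩
        simpa using this.pow_left (m := 3)
      exact hco.dvd_of_dvd_mul_left (hmm ▸ dvd_mul_right _ _)
    have hco : IsCoprime m k := ⟨-1, 8, by linarith⟩
    have e1 : m * k = b ^ 4 := by
      rw [hk] at hmm
      linarith
    obtain ⟨s, hs⟩ := pow_of_nonneg (by decide : Even 4) (by norm_num) hco e1 hm
    have m2 := sq_mod s
    have m3 := sq_mod (s ^ 2)
    have e : (s ^ 2) ^ 2 = s ^ 4 := by ring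
    omega

/-- `x² - 8 y⁴ = 1` only for `y = 0`, `y² = 1`. -/
theorem sq_sub_eight_mul_four {x y : ℤ} (h : x ^ 2 - 8 * y ^ 4 = 1) : y = 0 ∨ y ^ 2 = 1 := by
  obtain ⟨m, hm, hmm, -⟩ := exists_half (x := x) (c := 2 * y ^ 4) (by linarith [h])
  rcases Int.emod_two_eq_zero_or_one m with h2 | h2
  · obtain ⟨k, hk⟩ : ∃ k, m = 2 * k := ⟨m / 2, by omega⟩
    have hco : IsCoprime k (m + 1) := ⟨-2, 1, by rw [hk]; ring⟩
    have e1 : k * (m + 1) = y ^ 4 := by
      rw [hk] at hmm ⊢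
      linarith
    obtain ⟨r, hr⟩ := pow_of_nonneg (by decide : Even 4) (by norm_num) hco e1 (by omega)
    obtain ⟨s, hs⟩ := pow_of_nonneg (by decide : Even 4) (by norm_num) hco.symm
      (by rw [mul_comm]; exact e1) (by omega)
    have h3 : (s ^ 2) ^ 2 - 2 * r ^ 4 = 1 := by
      rw [← hr, show (s ^ 2) ^ 2 = s ^ 4 by ring, ← hs, hk]; ring
    have h4 := sq_sub_two_mul_four h3
    have h7 : y ^ 4 = 0 := by rw [← e1, hr, h4]; ring
    left
    simpa using h7
  · obtain ⟨k, hk⟩ : ∃ k, m + 1 = 2 * k := ⟨(m + 1) / 2, by omega⟩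
    have hco : IsCoprime m k := ⟨-1, 2, by linarith⟩
    have e1 : m * k = y ^ 4 := by
      rw [hk] at hmm
      linarith
    obtain ⟨s, hs⟩ := pow_of_nonneg (by decide : Even 4) (by norm_num) hco e1 hm
    obtain ⟨r, hr⟩ := pow_of_nonneg (by decide : Even 4) (by norm_num) hco.symm
      (by rw [mul_comm]; exact e1) (by omega)
    have h3 : ((s : ℤ) : ℚ) ^ 4 + 1 ^ 4 = 2 * ((r : ℚ) ^ 2) ^ 2 := by
      have : s ^ 4 + 1 = 2 * r ^ 4 := by rw [← hs, ← hr, hk]
      have h4 : ((s : ℤ) : ℚ) ^ 4 + 1 = 2 * (r : ℚ) ^ 4 := by exact_mod_cast this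
      rw [one_pow, h4]; ring
    have h4 := sq_eq_sq_of_four_add_four h3
    have h5 : s ^ 2 = 1 := by
      have : ((s : ℤ) : ℚ) ^ 2 = 1 := by rw [h4]; norm_num
      exact_mod_cast this
    have h6 : m = 1 := by rw [hs, show s ^ 4 = (s ^ 2) ^ 2 by ring, h5]; norm_num
    right
    have h7 : y ^ 4 = 1 := by
      rw [h6] at hmm
      linarith
    have h8 : (y ^ 2 - 1) * (y ^ 2 + 1) = 0 := by linarith [h7, show (y ^ 2 - 1) * (y ^ 2 + 1) = y ^ 4 - 1 by ring]
    rcases mul_eq_zero.1 h8 with h9 | h9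
    · linarith
    · nlinarith [sq_nonneg y]

/-! ### Pell's equation `x² - 3 y² = 1` -/

/-- `(2 + √3) ^ n = (VU n).1 + (VU n).2 √3` -/
def VU : ℕ → ℤ × ℤ
  | 0 => (1, 0)
  | n + 1 => (2 * (VU n).1 + 3 * (VU n).2, (VU n).1 + 2 * (VU n).2)

/-- the first coordinate -/
def v (n : ℕ) : ℤ := (VU n).1

/-- the second coordinate -/
def u (n : ℕ) : ℤ := (VU n).2

theorem v_zero : v 0 = 1 := rfl

theorem u_zero : u 0 = 0 := rfl

theorem v_succ (n : ℕ) : v (n + 1) = 2 * v n + 3 * u n := rfl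

theorem u_succ (n : ℕ) : u (n + 1) = v n + 2 * u n := rfl

theorem norm_eq (n : ℕ) : v n ^ 2 - 3 * u n ^ 2 = 1 := by
  induction n with
  | zero => rw [v_zero, u_zero]; norm_num
  | succ n ih =>
    rw [v_succ, u_succ]
    linear_combination ih

theorem add (m n : ℕ) : v (m + n) = v m * v n + 3 * u m * u n ∧
    u (m + n) = u m * v n + v m * u n := by
  induction n with
  | zero => rw [add_zero, v_zero, u_zero]; constructor <;> ring
  | succ n ih =>
    refine ⟨?_, ?_⟩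
    · rw [← add_assoc, v_succ, v_succ, u_succ]
      linear_combination 2 * ih.1 + 3 * ih.2
    · rw [← add_assoc, u_succ, u_succ, v_succ]
      linear_combination ih.1 + 2 * ih.2

theorem v_key (b m : ℕ) : v (b + (b + m)) + v m = 2 * v b * v (b + m) := by
  rw [(add b (b + m)).1, (add b m).1, (add b m).2]
  linear_combination (-v m) * norm_eq b

theorem v_two : v 2 = 7 := rfl

theorem v_add_four (n : ℕ) : v (n + 4) = 97 * v n + 168 * u n := by
  rw [(add n 4).1, show v 4 = 97 from rfl, show u 4 = 56 from rfl]; ring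

theorem v_add_twelve (n : ℕ) : v (n + 12) = 3650401 * v n + 6322680 * u n := by
  rw [(add n 12).1, show v 12 = 3650401 from rfl, show u 12 = 2107560 from rfl]; ring

theorem v_mod {k : ℕ} (h : k % 12 = 4 ∨ k % 12 = 8) : v k % 40 = 17 := by
  have key : ∀ j : ℕ, v (12 * j + 4) % 40 = 17 ∧ v (12 * j + 8) % 40 = 17 := by
    intro j
    induction j with
    | zero => exact ⟨rfl, rfl⟩
    | succ j ih =>
      have h1 := v_add_twelve (12 * j + 4)
      have h2 := v_add_twelve (12 * j + 8)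
      rw [show 12 * (j + 1) + 4 = 12 * j + 4 + 12 by ring,
        show 12 * (j + 1) + 8 = 12 * j + 8 + 12 by ring]
      omega
  rcases h with h | h
  · have := (key (k / 12)).1
    rwa [show 12 * (k / 12) + 4 = k by omega] at this
  · have := (key (k / 12)).2
    rwa [show 12 * (k / 12) + 8 = k by omega] at this

theorem v_mod_eight {n : ℕ} (h : v n % 4 = 3) : n % 4 = 2 := by
  have key : ∀ j : ℕ, v (4 * j) % 8 = 1 ∧ v (4 * j + 1) % 8 = 2 ∧ v (4 * j + 3) % 8 = 2 := by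
    intro j
    induction j with
    | zero => exact ⟨rfl, rfl, rfl⟩
    | succ j ih =>
      have h1 := v_add_four (4 * j)
      have h2 := v_add_four (4 * j + 1)
      have h3 := v_add_four (4 * j + 3)
      rw [show 4 * (j + 1) = 4 * j + 4 by ring, show 4 * j + 4 + 1 = 4 * j + 1 + 4 by ring,
        show 4 * j + 4 + 3 = 4 * j + 3 + 4 by ring]
      omega
  obtain ⟨k1, k2, k3⟩ := key (n / 4)
  by_contra hc
  have : n = 4 * (n / 4) ∨ n = 4 * (n / 4) + 1 ∨ n = 4 * (n / 4) + 3 := by omega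
  rcases this with h1 | h1 | h1
  · rw [← h1] at k1; omega
  · rw [← h1] at k2; omega
  · rw [← h1] at k3; omega

theorem v_dvd_three_mul (k : ℕ) : v k ∣ v (3 * k) := by
  have h := v_key k k
  rw [show k + (k + k) = 3 * k by ring] at h
  exact ⟨2 * v (k + k) - 1, by linear_combination h⟩

theorem v_dvd_pow (k r : ℕ) : v k ∣ v (3 ^ r * k) := by
  induction r with
  | zero => rw [pow_zero, one_mul]
  | succ r ih =>
    rw [pow_succ', mul_assoc]
    exact ih.trans (v_dvd_three_mul _)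

theorem vu_nonneg (n : ℕ) : 0 < v n ∧ 0 ≤ u n := by
  induction n with
  | zero => rw [v_zero, u_zero]; norm_num
  | succ n ih =>
    rw [v_succ, u_succ]
    constructor <;> linarith [ih.1, ih.2]

/-- Every solution of Pell's equation is a power of `2 + √3`. -/
theorem exists_v : ∀ (N : ℕ) (x y : ℤ), y.toNat = N → 0 < x → 0 ≤ y → x ^ 2 - 3 * y ^ 2 = 1 →
    ∃ n, x = v n ∧ y = u n := by
  intro N
  induction N using Nat.strong_induction_on with
  | _ N ih =>
    intro x y hN hx hy h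
    rcases hy.eq_or_lt with h0 | h0
    · refine ⟨0, ?_, by rw [u_zero, h0]⟩
      rw [v_zero]
      rw [← h0] at h
      nlinarith
    · have h1 : x ≤ 2 * y := by
        by_contra hc
        push Not at hc
        nlinarith
      have h2 : y < x := by
        by_contra hc
        push Not at hc
        nlinarith
      have h3 : 0 < 2 * x - 3 * y := by
        by_contra hc
        push Not at hc
        nlinarith
      obtain ⟨n, hn1, hn2⟩ := ih (2 * y - x).toNat (by omega) (2 * x - 3 * y) (2 * y - x) rfl h3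
        (by linarith) (by linear_combination h)
      refine ⟨n + 1, ?_, ?_⟩
      · rw [v_succ, ← hn1, ← hn2]; ring
      · rw [u_succ, ← hn1, ← hn2]; ring

/-- `-10` is not a square modulo a number `≡ 17 mod 40`. -/
theorem no_dvd {V t : ℤ} (hV : 0 < V) (h40 : V % 40 = 17) (h : V ∣ t ^ 2 + 10) : False := by
  obtain ⟨m, rfl⟩ := Int.eq_ofNat_of_zero_le hV.le
  have hm : m % 40 = 17 := by omega
  have h1 : jacobiSym (-10) m = -1 := by
    rw [jacobiSym.mod_right (-10) (Nat.odd_iff.2 (by omega))]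
    rw [show 4 * (-10 : ℤ).natAbs = 40 from rfl, hm]
    norm_num
  have h2 := ZMod.nonsquare_of_jacobiSym_eq_neg_one h1
  apply h2
  refine ⟨(t : ZMod m), ?_⟩
  have := (ZMod.intCast_zmod_eq_zero_iff_dvd (t ^ 2 + 10) m).mpr h
  push_cast at this ⊢
  linear_combination -this

/-- If `(4 m² + 3)² - 3 y² = 1`, then `m² = 1`. -/
theorem four_mul_sq_add_three {m y : ℤ} (h : (4 * m ^ 2 + 3) ^ 2 - 3 * y ^ 2 = 1) :
    m ^ 2 = 1 := by
  obtain ⟨n, hn, -⟩ := exists_v |y|.toNat (4 * m ^ 2 + 3) |y| rfl (by positivity) (abs_nonneg y)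
    (by rw [sq_abs]; exact h)
  have h4 := v_mod_eight (n := n) (by omega)
  rcases eq_or_ne n 2 with h2 | h2
  · rw [h2, v_two] at hn
    linarith
  exfalso
  obtain ⟨j, hj0, hj4, hj⟩ : ∃ j : ℕ, j ≠ 0 ∧ j % 4 = 0 ∧ v j ∣ v n + 7 := by
    have : n % 8 = 2 ∨ n % 8 = 6 := by omega
    rcases this with h8 | h8
    · refine ⟨(n - 2) / 2, by omega, by omega, ?_⟩
      have h5 := v_key ((n - 2) / 2) 2
      rw [show (n - 2) / 2 + ((n - 2) / 2 + 2) = n by omega, v_two] at h5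
      rw [h5]
      exact ⟨2 * v ((n - 2) / 2 + 2), by ring⟩
    · refine ⟨(n + 2) / 2, by omega, by omega, ?_⟩
      have h5 := v_key ((n - 2) / 2) 2
      rw [show (n - 2) / 2 + ((n - 2) / 2 + 2) = n by omega, v_two,
        show (n - 2) / 2 + 2 = (n + 2) / 2 by omega] at h5
      rw [h5]
      exact dvd_mul_left _ _
  obtain ⟨r, k, hk3, hk⟩ := Nat.exists_eq_pow_mul_and_not_dvd hj0 3 (by norm_num)
  have hk4 : 2 ^ 2 ∣ k := by
    have h5 : 2 ^ 2 ∣ 3 ^ r * k := by rw [← hk]; omega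
    exact (Nat.Coprime.pow 2 r (by norm_num)).dvd_of_dvd_mul_left h5
  have h6 : v k ∣ (2 * m) ^ 2 + 10 := by
    have h7 : (2 * m) ^ 2 + 10 = v n + 7 := by rw [← hn]; ring
    rw [h7]
    refine dvd_trans ?_ hj
    rw [hk]
    exact v_dvd_pow k r
  exact no_dvd (vu_nonneg k).1 (v_mod (by omega)) h6

/-! ### The equation `x (x + 1) (2 x + 1) = 6 y²` -/

theorem mod_three (z : ℤ) : z ^ 2 % 3 = 0 ∨ z ^ 2 % 3 = 1 := by
  obtain ⟨k, hk⟩ : ∃ k, z = 3 * k ∨ z = 3 * k + 1 ∨ z = 3 * k + 2 := ⟨z / 3, by omega⟩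
  rcases hk with h | h | h
  · left
    rw [h, show (3 * k) ^ 2 = 3 * (3 * k ^ 2) by ring]
    omega
  · right
    rw [h, show (3 * k + 1) ^ 2 = 3 * (3 * k ^ 2 + 2 * k) + 1 by ring]
    omega
  · right
    rw [h, show (3 * k + 2) ^ 2 = 3 * (3 * k ^ 2 + 4 * k + 1) + 1 by ring]
    omega

theorem aux_one {A B a : ℤ} (h1 : A ^ 2 * B ^ 2 = a ^ 2)
    (h2 : (6 * A ^ 2 - B ^ 2) ^ 2 = 24 * a ^ 2 + 1) : a = 0 ∨ a ^ 2 = 1 := by
  have h3 : (6 * A ^ 2 - 3 * B ^ 2) ^ 2 - 8 * B ^ 4 = 1 := by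
    linear_combination h2 - 24 * h1
  rcases sq_sub_eight_mul_four h3 with h4 | h4
  · left
    rw [h4] at h1
    have : a ^ 2 = 0 := by rw [← h1]; ring
    simpa using this
  · have h5 : A ^ 2 * (A ^ 2 - 1) = 0 := by
      rw [show B ^ 4 = (B ^ 2) ^ 2 by ring, h4] at h3
      linarith
    rw [h4, mul_one] at h1
    rcases mul_eq_zero.1 h5 with h6 | h6
    · left
      rw [h6] at h1
      simpa using h1.symm
    · right
      linarith

theorem aux_two {A B a : ℤ} (h1 : A ^ 2 * B ^ 2 = a ^ 2)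
    (h2 : (3 * A ^ 2 - 2 * B ^ 2) ^ 2 = 24 * a ^ 2 + 1) : a = 0 := by
  have h3 : (3 * A ^ 2 - 6 * B ^ 2) ^ 2 - 2 * (2 * B) ^ 4 = 1 := by
    linear_combination h2 - 24 * h1
  have h4 := sq_sub_two_mul_four h3
  have h5 : B = 0 := by omega
  rw [h5] at h1
  have : a ^ 2 = 0 := by rw [← h1]; ring
  simpa using this

/-- The case `x = 6 a²`. -/
theorem even_case {a p q : ℤ} (hp : 6 * a ^ 2 + 1 = p ^ 2) (hq : 12 * a ^ 2 + 1 = q ^ 2) :
    a = 0 ∨ a ^ 2 = 4 := by
  obtain ⟨b, rfl⟩ : ∃ b, a = 2 * b := by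
    have m1 := sq_mod a
    have m2 := sq_mod p
    exact ⟨a / 2, by omega⟩
  obtain ⟨s, hs0, hs, hs'⟩ := exists_half (x := p) (c := 6 * b ^ 2) (by linarith [hp])
  obtain ⟨t, ht0, ht, ht'⟩ := exists_half (x := q) (c := 12 * b ^ 2) (by linarith [hq])
  have hst : s ≤ t := by
    by_contra hc
    push Not at hc
    nlinarith [sq_nonneg b]
  have hp2 : (t + s + 1 - (t - s)) ^ 2 = 24 * b ^ 2 + 1 := by
    linear_combination 4 * hs
  have hgh : (t - s) * (t + s + 1) = 6 * b ^ 2 := by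
    linear_combination ht - hs
  have hco : IsCoprime (t - s) (t + s + 1) := by
    refine ⟨t - s, t + s + 1 - 6 * (t - s), ?_⟩
    linear_combination 8 * hs - 4 * ht
  have hg0 : 0 ≤ t - s := by linarith
  have hh0 : 0 ≤ t + s + 1 := by linarith
  generalize t - s = g at *
  generalize t + s + 1 = h at *
  have d2 : (2 : ℤ) ∣ g ∨ (2 : ℤ) ∣ h := Int.prime_two.dvd_or_dvd ⟨3 * b ^ 2, by rw [hgh]; ring⟩
  have d3 : (3 : ℤ) ∣ g ∨ (3 : ℤ) ∣ h := Int.prime_three.dvd_or_dvd ⟨2 * b ^ 2, by rw [hgh]; ring⟩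
  have fin : b = 0 ∨ b ^ 2 = 1 := by
    rcases d2 with d2 | d2 <;> rcases d3 with d3 | d3
    · obtain ⟨k, rfl⟩ : ∃ k, g = 6 * k := ⟨g / 6, by omega⟩
      have hk : IsCoprime k h := hco.of_mul_left_right
      have e : k * h = b ^ 2 := by linarith
      obtain ⟨A, hA⟩ := pow_of_nonneg even_two two_ne_zero hk e (by omega)
      obtain ⟨B, hB⟩ := pow_of_nonneg even_two two_ne_zero hk.symm (by rw [mul_comm]; exact e) hh0
      refine aux_one (A := A) (B := B) (by rw [← hA, ← hB, e]) ?_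
      rw [← hA, ← hB]
      linear_combination hp2
    · obtain ⟨k, rfl⟩ := d2
      obtain ⟨l, rfl⟩ := d3
      have hk : IsCoprime k l := hco.of_mul_left_right.of_mul_right_right
      have e : k * l = b ^ 2 := by linarith
      obtain ⟨B, hB⟩ := pow_of_nonneg even_two two_ne_zero hk e (by omega)
      obtain ⟨A, hA⟩ := pow_of_nonneg even_two two_ne_zero hk.symm (by rw [mul_comm]; exact e)
        (by omega)
      left
      refine aux_two (A := A) (B := B) (by rw [← hA, ← hB, ← e]; ring) ?_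
      rw [← hA, ← hB]
      linear_combination hp2
    · obtain ⟨k, rfl⟩ := d2
      obtain ⟨l, rfl⟩ := d3
      have hk : IsCoprime l k := hco.of_mul_left_right.of_mul_right_right
      have e : k * l = b ^ 2 := by linarith
      obtain ⟨A, hA⟩ := pow_of_nonneg even_two two_ne_zero hk (by rw [mul_comm]; exact e) (by omega)
      obtain ⟨B, hB⟩ := pow_of_nonneg even_two two_ne_zero hk.symm e (by omega)
      left
      refine aux_two (A := A) (B := B) (by rw [← hA, ← hB, ← e]; ring) ?_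
      rw [← hA, ← hB]
      linear_combination hp2
    · obtain ⟨k, rfl⟩ : ∃ k, h = 6 * k := ⟨h / 6, by omega⟩
      have hk : IsCoprime g k := hco.of_mul_right_right
      have e : g * k = b ^ 2 := by linarith
      obtain ⟨B, hB⟩ := pow_of_nonneg even_two two_ne_zero hk e hg0
      obtain ⟨A, hA⟩ := pow_of_nonneg even_two two_ne_zero hk.symm (by rw [mul_comm]; exact e)
        (by omega)
      refine aux_one (A := A) (B := B) (by rw [← hA, ← hB, ← e]; ring) ?_
      rw [← hA, ← hB]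
      linear_combination hp2
  rcases fin with h1 | h1
  · left
    rw [h1, mul_zero]
  · right
    linarith [show (2 * b) ^ 2 = 4 * b ^ 2 by ring]

theorem six_mul_sq {x y : ℤ} (hx : 0 < x) (h : x * (x + 1) * (2 * x + 1) = 6 * y ^ 2) :
    x = 1 ∨ x = 24 := by
  obtain ⟨k, hk⟩ : ∃ k, x = 6 * k ∨ x = 6 * k + 1 ∨ x = 6 * k + 2 ∨ x = 6 * k + 3 ∨
    x = 6 * k + 4 ∨ x = 6 * k + 5 := ⟨x / 6, by omega⟩
  rcases hk with rfl | rfl | rfl | rfl | rfl | rfl
  · obtain ⟨⟨a, ha⟩, ⟨p, hp⟩, ⟨q, hq⟩⟩ := triple (a := k) (b := 6 * k + 1) (c := 12 * k + 1) (y := y)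
      ⟨-6, 1, by ring⟩ ⟨-12, 1, by ring⟩ ⟨2, -1, by ring⟩ (by omega) (by omega) (by omega)
      (by linarith)
    rcases even_case (a := a) (p := p) (q := q) (by rw [← ha, hp]) (by rw [← ha, hq]) with h1 | h1
    · rw [h1] at ha
      norm_num at ha
      omega
    · right
      omega
  · obtain ⟨⟨r, hr⟩, ⟨w, hw⟩, ⟨t, ht⟩⟩ := triple (a := 6 * k + 1) (b := 3 * k + 1)
      (c := 4 * k + 1) (y := y)
      ⟨-1, 2, by ring⟩ ⟨-2, 3, by ring⟩ ⟨4, -3, by ring⟩ (by omega) (by omega) (by omega)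
      (by linarith)
    have h1 : (4 * r ^ 2 + 3) ^ 2 - 3 * (4 * w * t) ^ 2 = 1 := by
      rw [show (4 * w * t) ^ 2 = 16 * w ^ 2 * t ^ 2 by ring, ← hr, ← hw, ← ht]
      ring
    have h2 := four_mul_sq_add_three h1
    left
    omega
  · obtain ⟨-, -, ⟨q, hq⟩⟩ := triple (a := 3 * k + 1) (b := 2 * k + 1)
      (c := 12 * k + 5) (y := y)
      ⟨-2, 3, by ring⟩ ⟨-4, 1, by ring⟩ ⟨6, -1, by ring⟩ (by omega) (by omega) (by omega)
      (by linarith)
    have := mod_three q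
    omega
  · obtain ⟨-, ⟨q, hq⟩, -⟩ := triple (a := 2 * k + 1) (b := 3 * k + 2)
      (c := 12 * k + 7) (y := y)
      ⟨-3, 2, by ring⟩ ⟨-6, 1, by ring⟩ ⟨4, -1, by ring⟩ (by omega) (by omega) (by omega)
      (by linarith)
    have := mod_three q
    omega
  · obtain ⟨-, ⟨q, hq⟩, -⟩ := triple (a := 3 * k + 2) (b := 6 * k + 5)
      (c := 4 * k + 3) (y := y)
      ⟨-2, 1, by ring⟩ ⟨-4, 3, by ring⟩ ⟨2, -3, by ring⟩ (by omega) (by omega) (by omega)
      (by linarith)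
    have := mod_three q
    omega
  · obtain ⟨⟨q, hq⟩, -, -⟩ := triple (a := 6 * k + 5) (b := k + 1)
      (c := 12 * k + 11) (y := y)
      ⟨-1, 6, by ring⟩ ⟨-2, 1, by ring⟩ ⟨12, -1, by ring⟩ (by omega) (by omega) (by omega)
      (by linarith)
    have := mod_three q
    omega

theorem abs_of_sq {y : ℤ} {c : ℤ} (hc : 0 ≤ c) (h : y ^ 2 = c ^ 2) : |y| = c := by
  rw [sq_eq_sq_iff_abs_eq_abs, abs_of_nonneg hc] at h
  exact h

/-- The integral solutions of `x (x + 1) (2 x + 1) = 6 y²`. -/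
theorem six_mul_sq_iff {x y : ℤ} : x * (x + 1) * (2 * x + 1) = 6 * y ^ 2 ↔
    (x = -1 ∧ y = 0) ∨ (x = 0 ∧ y = 0) ∨ (x = 1 ∧ |y| = 1) ∨ (x = 24 ∧ |y| = 70) := by
  constructor
  · intro h
    rcases lt_trichotomy x 0 with hx | hx | hx
    · left
      have h1 : x = -1 := by
        by_contra hc
        have h2 : x + 1 < 0 := by omega
        have h3 : 0 < x * (x + 1) := mul_pos_of_neg_of_neg hx h2
        nlinarith [sq_nonneg y]
      subst h1
      have h2 : y ^ 2 = 0 := by linarith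
      exact ⟨rfl, by simpa using h2⟩
    · right; left
      subst hx
      have h2 : y ^ 2 = 0 := by linarith
      exact ⟨rfl, by simpa using h2⟩
    · rcases six_mul_sq hx h with h1 | h1
      · subst h1
        right; right; left
        exact ⟨rfl, abs_of_sq (by norm_num) (by linarith)⟩
      · subst h1
        right; right; right
        exact ⟨rfl, abs_of_sq (by norm_num) (by linarith)⟩
  · rintro (⟨rfl, rfl⟩ | ⟨rfl, rfl⟩ | ⟨rfl, h⟩ | ⟨rfl, h⟩)
    · norm_num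
    · norm_num
    · rw [← sq_abs y, h]; norm_num
    · rw [← sq_abs y, h]; norm_num

theorem six_mul_sum_sq (n : ℕ) :
    6 * ∑ i ∈ Finset.range (n + 1), i ^ 2 = n * (n + 1) * (2 * n + 1) := by
  induction n with
  | zero => simp
  | succ n ih =>
    rw [Finset.sum_range_succ, mul_add, ih]
    ring

/-- **The cannonball problem** (E. Lucas 1875; G. N. Watson 1918): the sum of the first `n`
squares is a square only for `n = 0, 1, 24`. -/
theorem cannonball (n m : ℕ) : ∑ i ∈ Finset.range (n + 1), i ^ 2 = m ^ 2 ↔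
    (n = 0 ∧ m = 0) ∨ (n = 1 ∧ m = 1) ∨ (n = 24 ∧ m = 70) := by
  constructor
  · intro h
    have h1 := six_mul_sum_sq n
    rw [h] at h1
    have h2 : (n : ℤ) * (n + 1) * (2 * n + 1) = 6 * (m : ℤ) ^ 2 := by exact_mod_cast h1.symm
    have h3 := six_mul_sq_iff.1 h2
    rw [Nat.abs_cast] at h3
    omega
  · rintro (⟨rfl, rfl⟩ | ⟨rfl, rfl⟩ | ⟨rfl, rfl⟩) <;> decide

/-! ### Tetrahedral numbers -/

theorem quart {p q : ℤ} (h : 18 * p ^ 2 * q ^ 2 - 9 * p ^ 4 - q ^ 4 = 8) :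
    p ^ 2 = 1 ∧ q ^ 2 = 1 := by
  have h1 : 9 * (p ^ 2 - q ^ 2) ^ 2 = 8 * (q ^ 4 - 1) := by linear_combination -h
  obtain ⟨e, he⟩ : ∃ e, p ^ 2 - q ^ 2 = 2 * e := by
    have m1 := sq_mod (p ^ 2 - q ^ 2)
    exact ⟨(p ^ 2 - q ^ 2) / 2, by omega⟩
  have h2 : 9 * e ^ 2 = 2 * (q ^ 4 - 1) := by
    rw [he] at h1
    linarith
  obtain ⟨f, rfl⟩ : ∃ f, e = 2 * f := by
    have m1 := sq_mod e
    exact ⟨e / 2, by omega⟩
  have h3 : q ^ 4 - 2 * (3 * f) ^ 2 = 1 := by linarith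
  have h4 := four_sub_two_sq h3
  have h5 : f = 0 := by omega
  rw [h5] at he h3
  have h6 : (q ^ 2 - 1) * (q ^ 2 + 1) = 0 := by linarith [h3]
  have h7 : q ^ 2 = 1 := by
    rcases mul_eq_zero.1 h6 with h8 | h8
    · linarith
    · nlinarith [sq_nonneg q]
  exact ⟨by linarith, h7⟩

theorem odd_case {a b c : ℤ} (h1 : b ^ 2 + 1 = 2 * a ^ 2) (h2 : b ^ 2 + 2 = 3 * c ^ 2) :
    b ^ 2 = 1 := by
  have ha0 := abs_nonneg a
  have hb0 := abs_nonneg b
  rw [← sq_abs b, ← sq_abs a] at h1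
  rw [← sq_abs b] at h2 ⊢
  generalize |a| = a at *
  generalize |b| = b at *
  have hP : 0 < 2 * a - b := by
    by_contra hc
    push Not at hc
    nlinarith
  have hodd : b % 2 = 1 := by
    have m1 := sq_mod b
    omega
  have hPQ : (2 * a - b) * (2 * a + b) = 3 * c ^ 2 := by
    linear_combination h2 - 2 * h1
  have hrel : 6 * ((2 * a - b) * (2 * a + b)) - (2 * a - b) ^ 2 - (2 * a + b) ^ 2 = 8 := by
    linear_combination -8 * h1
  have hPo : (2 * a - b) % 2 = 1 := by omega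
  have hQ : 0 < 2 * a + b := by linarith
  generalize 2 * a - b = P at *
  generalize 2 * a + b = Q at *
  have hco : IsCoprime P Q := by
    have e1 : IsCoprime P 2 := ⟨1, -(P / 2), by omega⟩
    have e2 : IsCoprime P (-8) := by
      have := (e1.pow_right (n := 3)).neg_right
      norm_num at this
      exact this
    have e3 : IsCoprime P (Q ^ 2) := by
      have : Q ^ 2 = -8 + P * (6 * Q - P) := by linear_combination -hrel
      rw [this]
      exact IsCoprime.add_mul_left_right e2 _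
    exact (IsCoprime.pow_right_iff two_pos).1 e3
  have h3 : b ^ 2 + 2 = P * Q := by rw [hPQ, h2]
  rcases Int.prime_three.dvd_or_dvd (a := P) (b := Q) ⟨c ^ 2, hPQ⟩ with ⟨k, rfl⟩ | ⟨k, rfl⟩
  · have hk : IsCoprime k Q := hco.of_mul_left_right
    have e : k * Q = c ^ 2 := by linarith
    obtain ⟨p, rfl⟩ := pow_of_nonneg even_two two_ne_zero hk e (by omega)
    obtain ⟨q, rfl⟩ := pow_of_nonneg even_two two_ne_zero hk.symm (by rw [mul_comm]; exact e)
      (by omega)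
    obtain ⟨h4, h5⟩ := quart (p := p) (q := q) (by linear_combination hrel)
    rw [h4, h5] at h3
    linarith
  · have hk : IsCoprime P k := hco.of_mul_right_right
    have e : P * k = c ^ 2 := by linarith
    obtain ⟨q, rfl⟩ := pow_of_nonneg even_two two_ne_zero hk e (by omega)
    obtain ⟨p, rfl⟩ := pow_of_nonneg even_two two_ne_zero hk.symm (by rw [mul_comm]; exact e)
      (by omega)
    obtain ⟨h4, h5⟩ := quart (p := p) (q := q) (by linear_combination hrel)
    rw [h4, h5] at h3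
    linarith

theorem tetra {n y : ℤ} (hn : 0 < n) (h : n * (n + 1) * (n + 2) = 6 * y ^ 2) :
    n = 1 ∨ n = 2 ∨ n = 48 := by
  obtain ⟨k, hk⟩ : ∃ k, n = 2 * k ∨ n = 6 * k + 1 ∨ n = 6 * k + 3 ∨ n = 6 * k + 5 := by
    by_cases h2 : n % 2 = 0
    · exact ⟨n / 2, by omega⟩
    · exact ⟨n / 6, by omega⟩
  rcases hk with rfl | rfl | rfl | rfl
  · obtain ⟨z, rfl⟩ : ∃ z, y = 2 * z := by
      have m1 := sq_mod y
      have e : 2 * (k * (k + 1) * (2 * k + 1)) = 3 * y ^ 2 := by linarith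
      exact ⟨y / 2, by omega⟩
    have := six_mul_sq (x := k) (y := z) (by omega) (by linarith)
    omega
  · obtain ⟨⟨b, hb⟩, ⟨a, ha⟩, ⟨c, hc⟩⟩ := triple (a := 6 * k + 1) (b := 3 * k + 1)
      (c := 2 * k + 1) (y := y)
      ⟨-1, 2, by ring⟩ ⟨k, 1 - 3 * k, by ring⟩ ⟨-2, 3, by ring⟩ (by omega) (by omega) (by omega)
      (by linarith)
    have := odd_case (a := a) (b := b) (c := c) (by rw [← ha, ← hb]; ring)
      (by rw [← hb, ← hc]; ring)
    omega
  · obtain ⟨-, ⟨q, hq⟩, -⟩ := triple (a := 2 * k + 1) (b := 3 * k + 2)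
      (c := 6 * k + 5) (y := y)
      ⟨-3, 2, by ring⟩ ⟨1 + 3 * k, -k, by ring⟩ ⟨-2, 1, by ring⟩ (by omega) (by omega) (by omega)
      (by linarith)
    have := mod_three q
    omega
  · obtain ⟨⟨q, hq⟩, -, -⟩ := triple (a := 6 * k + 5) (b := k + 1)
      (c := 6 * k + 7) (y := y)
      ⟨-1, 6, by ring⟩ ⟨3 * k + 3, -(3 * k + 2), by ring⟩ ⟨-6, 1, by ring⟩ (by omega) (by omega)
      (by omega) (by linarith)
    have := mod_three q
    omega

/-- The integral solutions of `x³ - x = 6 y²`. -/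
theorem cube_sub_self_iff {x y : ℤ} : x ^ 3 - x = 6 * y ^ 2 ↔
    (x = -1 ∧ y = 0) ∨ (x = 0 ∧ y = 0) ∨ (x = 1 ∧ y = 0) ∨ (x = 2 ∧ |y| = 1) ∨
      (x = 3 ∧ |y| = 2) ∨ (x = 49 ∧ |y| = 140) := by
  constructor
  · intro h
    have key : x = -1 ∨ x = 0 ∨ x = 1 ∨ x = 2 ∨ x = 3 ∨ x = 49 := by
      rcases le_or_gt x 1 with hx | hx
      · have h1 : -1 ≤ x := by
          by_contra hc
          push Not at hc
          have h2 : 0 < x ^ 2 - 1 := by nlinarith
          nlinarith [sq_nonneg y]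
        omega
      · have := tetra (n := x - 1) (y := y) (by omega) (by linarith)
        omega
    rcases key with rfl | rfl | rfl | rfl | rfl | rfl
    · left
      have h2 : y ^ 2 = 0 := by linarith
      exact ⟨rfl, by simpa using h2⟩
    · right; left
      have h2 : y ^ 2 = 0 := by linarith
      exact ⟨rfl, by simpa using h2⟩
    · right; right; left
      have h2 : y ^ 2 = 0 := by linarith
      exact ⟨rfl, by simpa using h2⟩
    · right; right; right; left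
      exact ⟨rfl, abs_of_sq (by norm_num) (by linarith)⟩
    · right; right; right; right; left
      exact ⟨rfl, abs_of_sq (by norm_num) (by linarith)⟩
    · right; right; right; right; right
      exact ⟨rfl, abs_of_sq (by norm_num) (by linarith)⟩
  · rintro (⟨rfl, rfl⟩ | ⟨rfl, rfl⟩ | ⟨rfl, rfl⟩ | ⟨rfl, h⟩ | ⟨rfl, h⟩ | ⟨rfl, h⟩)
    · norm_num
    · norm_num
    · norm_num
    · rw [← sq_abs y, h]; norm_num
    · rw [← sq_abs y, h]; norm_num
    · rw [← sq_abs y, h]; norm_num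

theorem six_mul_choose (n : ℕ) : 6 * (n + 2).choose 3 = n * (n + 1) * (n + 2) := by
  have h := Nat.descFactorial_eq_factorial_mul_choose (n + 2) 3
  rw [show Nat.factorial 3 = 6 from rfl] at h
  rw [← h]
  simp only [Nat.descFactorial_succ, Nat.descFactorial_zero]
  rw [show n + 2 - 2 = n by omega, show n + 2 - 1 = n + 1 by omega, show n + 2 - 0 = n + 2 by omega]
  ring

/-- **Square tetrahedral numbers** (A. Meyl, 1878): `n (n + 1) (n + 2) / 6` is a square only for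
`n = 0, 1, 2, 48`. -/
theorem tetrahedral (n m : ℕ) : (n + 2).choose 3 = m ^ 2 ↔
    (n = 0 ∧ m = 0) ∨ (n = 1 ∧ m = 1) ∨ (n = 2 ∧ m = 2) ∨ (n = 48 ∧ m = 140) := by
  constructor
  · intro h
    have h1 := six_mul_choose n
    rw [h] at h1
    have h2 : ((n : ℤ) + 1) ^ 3 - (n + 1) = 6 * (m : ℤ) ^ 2 := by
      have : 6 * (m : ℤ) ^ 2 = n * (n + 1) * (n + 2) := by exact_mod_cast h1
      rw [this]; ring
    have h3 := cube_sub_self_iff.1 h2
    rw [Nat.abs_cast] at h3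
    omega
  · rintro (⟨rfl, rfl⟩ | ⟨rfl, rfl⟩ | ⟨rfl, rfl⟩ | ⟨rfl, rfl⟩) <;> decide

theorem three_mul_sum_odd (n : ℕ) :
    3 * ∑ i ∈ Finset.range n, ((2 * i + 1 : ℕ) : ℤ) ^ 2 = n * (2 * n - 1) * (2 * n + 1) := by
  induction n with
  | zero => simp
  | succ n ih =>
    rw [Finset.sum_range_succ, mul_add, ih]
    push_cast
    ring

/-- `1² + 3² + ... + (2 n - 1)²` is a square only for `n = 0, 1`. -/
theorem odd_squares (n m : ℕ) : ∑ i ∈ Finset.range n, (2 * i + 1) ^ 2 = m ^ 2 ↔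
    (n = 0 ∧ m = 0) ∨ (n = 1 ∧ m = 1) := by
  constructor
  · intro h
    have h1 := three_mul_sum_odd n
    have h0 : ∑ i ∈ Finset.range n, ((2 * i + 1 : ℕ) : ℤ) ^ 2 = (m : ℤ) ^ 2 := by exact_mod_cast h
    rw [h0] at h1
    have h2 : (2 * (n : ℤ)) ^ 3 - 2 * n = 6 * (m : ℤ) ^ 2 := by linear_combination -2 * h1
    have h3 := cube_sub_self_iff.1 h2
    rw [Nat.abs_cast] at h3
    omega
  · rintro (⟨rfl, rfl⟩ | ⟨rfl, rfl⟩) <;> decide

end Fermat.Agent.Cor.Cannon
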