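/-
Products of few consecutive integers; triangular numbers which are powers (helper47).
-/
import Fermat.Agent.Corollaries.Cannon.Main
import Fermat.Agent.Corollaries.Cat.Square

/-!
# Products of two, three, four consecutive integers; triangular cubes

* `two_consecutive`, `three_consecutive`, `four_consecutive`: a product of two, three or four
  consecutive positive integers is not a perfect power (the first cases of the theorem of
  P. Erdős and J. L. Selfridge, 1975).
* `sum_eq_cube`, `sum_eq_pow`: `1 + 2 + ... + n = m ^ k` only for `n ≤ 1`, if `k > 0` is divisible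
  by `3` (Euler) or by `4`.
* `sum_cubes_eq_cube`, `sum_cubes_eq_pow`: `1³ + 2³ + ... + n³ = m ^ k` only for `n ≤ 1`, if
  `k > 0` is divisible by `3` or by `8`.
-/

namespace Fermat.Agent.Cor.Cannon

theorem exists_pow {a b c k : ℕ} (h : Nat.Coprime a b) (e : a * b = c ^ k) : ∃ d, a = d ^ k :=
  exists_eq_pow_of_mul_eq_pow (Nat.isUnit_iff.2 h) e

/-- Two positive `k`-th powers do not differ by `1`. -/
theorem pow_ne_add_one {a b k : ℕ} (ha : 0 < a) (hk : 2 ≤ k) : b ^ k ≠ a ^ k + 1 := by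
  intro h
  have h1 : a < b := by
    by_contra hc
    push Not at hc
    have := Nat.pow_le_pow_left hc k
    omega
  have h2 : (a + 1) ^ k ≤ b ^ k := Nat.pow_le_pow_left h1 k
  obtain ⟨j, rfl⟩ : ∃ j, k = j + 1 := ⟨k - 1, by omega⟩
  have h3 : (a + 1) ^ (j + 1) = (a + 1) ^ j * a + (a + 1) ^ j := by ring
  have h4 : a ^ j ≤ (a + 1) ^ j := Nat.pow_le_pow_left (by omega) j
  have h5 : a ^ (j + 1) ≤ (a + 1) ^ j * a := by
    rw [pow_succ]
    exact Nat.mul_le_mul_right a h4
  have h6 : 2 ^ j ≤ (a + 1) ^ j := Nat.pow_le_pow_left (by omega) j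
  have h7 : 2 ^ 1 ≤ 2 ^ j := Nat.pow_le_pow_right (by norm_num) (by omega)
  omega

/-- `n (n + 1)` is not a perfect power. -/
theorem two_consecutive {n m k : ℕ} (hn : 0 < n) (hk : 2 ≤ k) : n * (n + 1) ≠ m ^ k := by
  intro h
  have hco : Nat.Coprime n (n + 1) := by simp
  obtain ⟨a, ha⟩ := exists_pow hco h
  obtain ⟨b, hb⟩ := exists_pow hco.symm (by rw [mul_comm]; exact h)
  have ha0 : 0 < a := by
    rcases Nat.eq_zero_or_pos a with h0 | h0
    · rw [h0, zero_pow (by omega)] at ha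
      omega
    · exact h0
  exact pow_ne_add_one (a := a) (b := b) ha0 hk (by rw [← ha, ← hb])

/-- `n (n + 1) (n + 2)` is not a perfect power. -/
theorem three_consecutive {n m k : ℕ} (hn : 0 < n) (hk : 2 ≤ k) :
    n * (n + 1) * (n + 2) ≠ m ^ k := by
  intro h
  have h1 : (n + 1) * (n * (n + 2)) = m ^ k := by rw [← h]; ring
  have hco : Nat.Coprime (n + 1) (n * (n + 2)) := by
    have aux : ∀ a : ℕ, Nat.Coprime a (a + 1) := fun a => by simp
    exact Nat.Coprime.mul_right (aux n).symm (aux (n + 1))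
  obtain ⟨a, ha⟩ := exists_pow hco h1
  obtain ⟨b, hb⟩ := exists_pow hco.symm (by rw [mul_comm]; exact h1)
  have hb0 : 0 < b := by
    rcases Nat.eq_zero_or_pos b with h0 | h0
    · rw [h0, zero_pow (by omega)] at hb
      have : 0 < n * (n + 2) := by positivity
      omega
    · exact h0
  refine pow_ne_add_one (a := b) (b := a ^ 2) hb0 hk ?_
  rw [← pow_mul, mul_comm, pow_mul, ← ha, ← hb]
  ring

/-- `n (n + 1) (n + 2) (n + 3)` is not a perfect power. -/
theorem four_consecutive {n m k : ℕ} (hn : 0 < n) (hk : 2 ≤ k) :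
    n * (n + 1) * (n + 2) * (n + 3) ≠ m ^ k := by
  intro h
  have hm : 0 < m := by
    rcases Nat.eq_zero_or_pos m with h0 | h0
    · rw [h0, zero_pow (by omega)] at h
      have : 0 < n * (n + 1) * (n + 2) * (n + 3) := by positivity
      omega
    · exact h0
  have h1 : (n ^ 2 + 3 * n + 1) ^ 2 = m ^ k + 1 := by
    rw [← h]; ring
  obtain ⟨h2, -, -⟩ := Cat.sq_eq_pow_add_one_nat hk hm h1
  have h3 : n * (n + 3) = 2 := by
    have : n ^ 2 + 3 * n = n * (n + 3) := by ring
    omega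
  have h4 : n ≤ 1 := by
    by_contra hc
    push Not at hc
    nlinarith
  have h5 : n = 1 := by omega
  subst h5
  omega

theorem two_mul_sum (n : ℕ) : 2 * ∑ i ∈ Finset.range (n + 1), i = n * (n + 1) := by
  have := Finset.sum_range_id_mul_two (n + 1)
  rw [Nat.add_sub_cancel] at this
  linarith [mul_comm (n + 1) n]

/-- `1 + 2 + ... + n` is a cube only for `n ≤ 1` (Euler). -/
theorem sum_eq_cube {n m : ℕ} (h : ∑ i ∈ Finset.range (n + 1), i = m ^ 3) : n ≤ 1 := by
  have h1 := two_mul_sum n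
  rw [h] at h1
  have h2 : (2 * (n : ℤ) + 1) ^ 2 = (2 * (m : ℤ)) ^ 3 + 1 := by
    have : 2 * (m : ℤ) ^ 3 = n * (n + 1) := by exact_mod_cast h1
    linear_combination -4 * this
  have h3 := Cat.sq_eq_cube_add_one h2
  have h4 : m ≤ 1 := by omega
  have h5 : m ^ 3 ≤ 1 := by
    calc m ^ 3 ≤ 1 ^ 3 := Nat.pow_le_pow_left h4 3
      _ = 1 := by norm_num
  by_contra hc
  push Not at hc
  nlinarith

/-- `1 + 2 + ... + n` is a fourth power only for `n ≤ 1`. -/
theorem sum_eq_four {n m : ℕ} (h : ∑ i ∈ Finset.range (n + 1), i = m ^ 4) : n ≤ 1 := by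
  have h1 := two_mul_sum n
  rw [h] at h1
  have h2 : (2 * (n : ℤ) + 1) ^ 2 - 8 * (m : ℤ) ^ 4 = 1 := by
    have : 2 * (m : ℤ) ^ 4 = n * (n + 1) := by exact_mod_cast h1
    linear_combination -4 * this
  have h3 : m ^ 4 ≤ 1 := by
    rcases sq_sub_eight_mul_four h2 with h4 | h4
    · have : m = 0 := by exact_mod_cast h4
      rw [this]; norm_num
    · have : m ^ 2 = 1 := by exact_mod_cast h4
      rw [show m ^ 4 = (m ^ 2) ^ 2 by ring, this]; norm_num
  by_contra hc
  push Not at hc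
  nlinarith

/-- `1 + 2 + ... + n` is a `k`-th power, `k` divisible by `3` or `4`, only for `n ≤ 1`. -/
theorem sum_eq_pow {n m k : ℕ} (hk : 3 ∣ k ∨ 4 ∣ k)
    (h : ∑ i ∈ Finset.range (n + 1), i = m ^ k) : n ≤ 1 := by
  rcases hk with ⟨j, rfl⟩ | ⟨j, rfl⟩
  · exact sum_eq_cube (m := m ^ j) (by rw [h, ← pow_mul, mul_comm])
  · exact sum_eq_four (m := m ^ j) (by rw [h, ← pow_mul, mul_comm])

theorem sum_cubes (n : ℕ) :
    ∑ i ∈ Finset.range (n + 1), i ^ 3 = (∑ i ∈ Finset.range (n + 1), i) ^ 2 := by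
  have key : 4 * ∑ i ∈ Finset.range (n + 1), i ^ 3 = (n * (n + 1)) ^ 2 := by
    induction n with
    | zero => simp
    | succ n ih =>
      rw [Finset.sum_range_succ, mul_add, ih]
      ring
  have h := two_mul_sum n
  rw [← h] at key
  linarith [key, show (2 * ∑ i ∈ Finset.range (n + 1), i) ^ 2
    = 4 * (∑ i ∈ Finset.range (n + 1), i) ^ 2 by ring]

/-- `1³ + 2³ + ... + n³` is a `k`-th power, `k` divisible by `3` or `8`, only for `n ≤ 1`. -/
theorem sum_cubes_eq_pow {n m k : ℕ} (hk : 3 ∣ k ∨ 8 ∣ k)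
    (h : ∑ i ∈ Finset.range (n + 1), i ^ 3 = m ^ k) : n ≤ 1 := by
  rw [sum_cubes] at h
  rcases hk with ⟨j, rfl⟩ | ⟨j, rfl⟩
  · obtain ⟨c, hc, -⟩ := Nat.exists_eq_pow_of_exponent_coprime_of_pow_eq_pow
      (a := ∑ i ∈ Finset.range (n + 1), i) (b := m ^ j) (m := 2) (n := 3) (by norm_num)
      (by rw [h, ← pow_mul, mul_comm])
    exact sum_eq_cube hc
  · apply sum_eq_four (m := m ^ j)
    have h1 : (∑ i ∈ Finset.range (n + 1), i) ^ 2 = (m ^ (4 * j)) ^ 2 := by
      rw [h, ← pow_mul]; congr 1; ring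
    rw [Nat.pow_left_injective two_ne_zero h1, ← pow_mul, mul_comm]

end Fermat.Agent.Cor.Cannon
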